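/-
Project BAD, block LQ-MOD, part (3) COMPLETE (sub-architect helper237).  Task LQM-C2.

The Gauss valuation ring `(stdEmb A₀ N).val` of `FK K N` (helper156's `IntEmb` framework,
`S36/Mod/GaussEmb/*`, `S36/Mod/Fields.lean`) is THE Gauss valuation ring in the sense of
`S18.IsGauss`; behaviour of the valuation rings and of the residue maps under the two degeneracy
maps; the residue of `j`.

Sketches.
* `isGauss_stdEmb`: `unif`: `IntEmb.isUnif_val` with `π = ⟨ϖ₀, _⟩` (`IsUnif.irreducible`,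
  `S18/Chart/DedUnif.lean`), `U = 1`; `mem`: `IntEmb.mem_val_of_eq_inc`; `inv_mem`:
  `IntEmb.inv_mem_val_of_pres` with `Q = 1`.  (`inc A = coeffMap A.subtype`, `red A = coeffMap (residue A)`
  by definition.)
* `IsGauss.eq_stdEmb`: `IsGauss.eq_of_hasNf (Gauss.hasNf_FK h₀ N)`.
* `al`: `(stdEmb A₀ (M * q)).comp al` and `stdEmb A₀ M` have the same `toHom` (`coe_heckeAlphaBar`):
  `IntEmb.val_comp`, `IntEmb.val_congr`, `IntEmb.res_comp`, `IntEmb.res_congr`.
* `be`: `(stdEmb A₀ (M * q)).comp be` and `(stdEmb A₀ M).dil q` have the same `toHom`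
  (`coe_heckeBetaBar`): `IntEmb.val_dil`, `IntEmb.res_dil`.
* `jK`: the expansion of `jK K M` is `jqModC K = inc A₀ (jqModC A₀)` (`S18.Descent.coeffEmb_jq` or
  `S18.coe_jK` in `S18/Gauss/VertJ.lean`, `coeffMap_jqModC`); `IntEmb.res_of_eq_inc`.
* `order_jqModC'`: `coeff_jqModC_neg_one`, `coeff_jqModC_of_lt` (`HahnSeries.order_le_of_coeff_ne_zero`,
  `HahnSeries.le_order_iff..` or `HahnSeries.coeff_order_ne_zero`).
-/
import Fermat.Agent.S36.Mod.GaussEmb.Funct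
import Fermat.Agent.S36.Mod.Fields
import Fermat.Agent.S18.Gauss.Field
import Fermat.Agent.S18.Chart.DedUnif

set_option autoImplicit false
set_option linter.unusedSectionVars false

noncomputable section

namespace Fermat.Agent.BAD.LevelQ

open ModularCurve Fermat.Agent.S18 Fermat.Agent.S18.Vert Fermat.Agent.S36.Mod

variable {K : Type*} [Field K] [Algebra ℚ K] (A₀ : ValuationSubring K) [IsDiscreteValuationRing A₀]

/-! ### Auxiliary: transport along a homomorphism of fields (generic, so that nothing unfolds) -/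

section StdAux

variable {L : Type*} [Field L] {A : ValuationSubring L} [IsDiscreteValuationRing A]
  {F F' : Type*} [Field F] [Field F'] {R : Type*} [CommSemiring R] [Algebra R F] [Algebra R F']

theorem stdAux_mem_iff (φ : IntEmb A F) (ψ : IntEmb A F') (g : F' →ₐ[R] F)
    (hg : ∀ f, φ.toHom (g f) = ψ.toHom f) (f : F') : g f ∈ φ.val ↔ f ∈ ψ.val := by
  have e : (φ.comp g.toRingHom).val = ψ.val := IntEmb.val_congr (RingHom.ext hg)
  rw [← e]
  exact Iff.rfl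

theorem stdAux_res (φ : IntEmb A F) (ψ : IntEmb A F') (g : F' →ₐ[R] F)
    (hg : ∀ f, φ.toHom (g f) = ψ.toHom f) (f : F') (h : f ∈ ψ.val) (h' : g f ∈ φ.val) :
    φ.res ⟨g f, h'⟩ = ψ.res ⟨f, h⟩ :=
  IntEmb.res_congr (φ := φ.comp g.toRingHom) (ψ := ψ) (RingHom.ext hg) f h' h

theorem stdAux_dil_toHom (ψ : IntEmb A F') (n : ℕ) [NeZero n] (f : F') :
    (ψ.dil n).toHom f = qExpand L n (ψ.toHom f) := rfl

end StdAux

variable {A₀} in
theorem isGauss_stdEmb {ϖ₀ : K} (h₀ : IsUnif A₀ ϖ₀) (N : ℕ) :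
    IsGauss A₀ ϖ₀ (FK K N) (stdEmb A₀ N).val := by
  refine ⟨?_, ?_, ?_⟩
  · refine (stdEmb A₀ N).isUnif_val (π := ⟨ϖ₀, h₀.mem⟩) h₀.irreducible (U := 1)
      (by rw [map_one]; exact one_ne_zero) ?_
    rw [mul_one, inc_C, stdEmb_toHom_apply]
    rfl
  · intro P hP
    exact (stdEmb A₀ N).mem_val_of_eq_inc (P := P) (stdEmb_toHom_apply A₀ N _)
  · intro P hP hP0
    refine (stdEmb A₀ N).inv_mem_val_of_pres (P := P) (Q := 1) hP0 ?_
    rw [map_one, mul_one, stdEmb_toHom_apply]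
    rfl

variable {A₀} in
theorem IsGauss.eq_stdEmb {ϖ₀ : K} (h₀ : IsUnif A₀ ϖ₀) {N : ℕ} {Ow : ValuationSubring (FK K N)}
    (hG : IsGauss A₀ ϖ₀ (FK K N) Ow) : Ow = (stdEmb A₀ N).val :=
  hG.eq_of_hasNf (Gauss.hasNf_FK h₀ N) (isGauss_stdEmb h₀ N)

variable (M q : ℕ) [NeZero M] [NeZero q]

theorem std_al_mem_iff (f : FK K M) :
    heckeAlphaBar K M q f ∈ (stdEmb A₀ (M * q)).val ↔ f ∈ (stdEmb A₀ M).val :=
  stdAux_mem_iff (stdEmb A₀ (M * q)) (stdEmb A₀ M) (heckeAlphaBar K M q)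
    (fun f => by rw [stdEmb_toHom_apply, stdEmb_toHom_apply, coe_heckeAlphaBar]) f

theorem std_res_al (f : FK K M) (h : f ∈ (stdEmb A₀ M).val)
    (h' : heckeAlphaBar K M q f ∈ (stdEmb A₀ (M * q)).val) :
    (stdEmb A₀ (M * q)).res ⟨heckeAlphaBar K M q f, h'⟩ = (stdEmb A₀ M).res ⟨f, h⟩ :=
  stdAux_res (stdEmb A₀ (M * q)) (stdEmb A₀ M) (heckeAlphaBar K M q)
    (fun f => by rw [stdEmb_toHom_apply, stdEmb_toHom_apply, coe_heckeAlphaBar]) f h h'

theorem std_be_mem_iff (f : FK K M) :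
    heckeBetaBar K M q f ∈ (stdEmb A₀ (M * q)).val ↔ f ∈ (stdEmb A₀ M).val := by
  rw [← IntEmb.val_dil (stdEmb A₀ M) q]
  exact stdAux_mem_iff (stdEmb A₀ (M * q)) ((stdEmb A₀ M).dil q) (heckeBetaBar K M q)
    (fun f => by
      rw [stdAux_dil_toHom, stdEmb_toHom_apply, stdEmb_toHom_apply, coe_heckeBetaBar]) f

theorem std_res_be (f : FK K M) (h : f ∈ (stdEmb A₀ M).val)
    (h' : heckeBetaBar K M q f ∈ (stdEmb A₀ (M * q)).val) :
    (stdEmb A₀ (M * q)).res ⟨heckeBetaBar K M q f, h'⟩ =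
      qExpand (IsLocalRing.ResidueField A₀) q ((stdEmb A₀ M).res ⟨f, h⟩) := by
  have h2 : f ∈ ((stdEmb A₀ M).dil q).val := by rw [IntEmb.val_dil]; exact h
  rw [← IntEmb.res_dil (stdEmb A₀ M) q f h2 h]
  exact stdAux_res (stdEmb A₀ (M * q)) ((stdEmb A₀ M).dil q) (heckeBetaBar K M q)
    (fun f => by
      rw [stdAux_dil_toHom, stdEmb_toHom_apply, stdEmb_toHom_apply, coe_heckeBetaBar]) f h2 h'

theorem std_coe_jK : ((jK K M : FK K M) : LaurentSeries K) = jqModC K :=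
  coeffMap_jqModC (R := ℚ) _

theorem std_toHom_jK : (stdEmb A₀ M).toHom (jK K M) = inc A₀ (jqModC A₀) := by
  rw [stdEmb_toHom_apply, std_coe_jK]
  exact (coeffMap_jqModC A₀.subtype).symm

theorem std_jK_mem : jK K M ∈ (stdEmb A₀ M).val :=
  (stdEmb A₀ M).mem_val_of_eq_inc (std_toHom_jK A₀ M)

theorem std_res_jK :
    (stdEmb A₀ M).res ⟨jK K M, std_jK_mem A₀ M⟩ = jqModC (IsLocalRing.ResidueField A₀) :=
  ((stdEmb A₀ M).res_of_eq_inc (std_toHom_jK A₀ M)).trans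
    (coeffMap_jqModC (IsLocalRing.residue A₀))

theorem order_jqModC' (k : Type*) [Field k] : (jqModC k).order = -1 := by
  have h1 : (jqModC k).coeff (-1) = 1 := coeff_jqModC_neg_one k
  have hne : jqModC k ≠ 0 := jqModC_ne_zero_of_nontrivial k
  apply le_antisymm
  · exact HahnSeries.order_le_of_coeff_ne_zero (by rw [h1]; exact one_ne_zero)
  · by_contra hlt
    exact hne (HahnSeries.coeff_order_eq_zero.mp (coeff_jqModC_of_lt k (not_le.mp hlt)))

end Fermat.Agent.BAD.LevelQ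

end
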