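/-
Project BAD, block LQ-MOD, part (3) COMPLETE (sub-architect helper237).  Task LQM-C1.

ABSTRACT FILE.  `TwoHyp` (see `BAD/LevelQ/Abs/Two.lean`) for `V₁` and `V₂ = V₁ ∘ w`, from residue maps
with values in `k((t))`:  `r₁ (α f) = r' f`,  `r₁ (β f) = (r' f)(t ^ q)`,  `w α = β`, `w β = α`, and an
element `θ'` of `R` whose residue has order prime to `q`.

Sketches.
* `valuation_comap_lt_one_iff`: `W.valuation z < 1 ↔ z = 0 ∨ z⁻¹ ∉ W`
  (`ValuationSubring.valuation_le_one_iff`, `map_inv₀`, `inv_le_one₀`; compare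
  `S36.Mod.IntEmb.mem_nonunits_iff_aux`), and `f z⁻¹ = (f z)⁻¹`, `f z = 0 ↔ z = 0`.
* `isUnif_comap`: transport the three fields along `w` (`map_div₀`, `map_zpow₀`, `map_inv₀`).
* `sep_elt`: `e = w a / (a + w a)`.  `a + w a` is a unit of `V₁` (`Valuation.map_add_eq_of_lt_left`),
  `e - 1 = - a / (a + w a)`, `w e = a / (a + w a)` (`w (w a) = a`).
* `twoHyp_of_res`, field `ind`: by `valuation_comap_lt_one_iff` the hypothesis says
  `V₁.valuation (∑ β (a i) * (α θ') ^ i) < 1`; apply `r₁` (write the sum as the coercion of a sum in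
  `V₁`): `∑ qExpand k q (r' (a i)) * (r' θ') ^ i = 0`; `S36.Mod.indep_pow` gives `r' (a i) = 0`.
-/
import Fermat.Agent.BAD.LevelQ.Abs.Two
import Fermat.Agent.S36.Mod.ThetaField

set_option autoImplicit false

noncomputable section

namespace Fermat.Agent.BAD.LevelQ

open Polynomial ModularCurve Fermat.Agent.S18

theorem completeAbs_lt_one_iff {F : Type*} [Field F] (W : ValuationSubring F) (z : F) :
    W.valuation z < 1 ↔ z = 0 ∨ z⁻¹ ∉ W := by
  by_cases hz : z = 0
  · simp [hz]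
  · have h0 : 0 < W.valuation z := zero_lt_iff.mpr ((_root_.map_ne_zero _).mpr hz)
    rw [← W.valuation_le_one_iff, map_inv₀, inv_le_one₀ h0, not_le]
    simp [hz]

theorem valuation_comap_lt_one_iff {F₁ F₂ : Type*} [Field F₁] [Field F₂] (W : ValuationSubring F₂)
    (f : F₁ →+* F₂) (z : F₁) : (W.comap f).valuation z < 1 ↔ W.valuation (f z) < 1 := by
  rw [completeAbs_lt_one_iff, completeAbs_lt_one_iff, ValuationSubring.mem_comap, map_inv₀,
    map_eq_zero]

theorem valuation_comap_eq_one_iff {F₁ F₂ : Type*} [Field F₁] [Field F₂] (W : ValuationSubring F₂)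
    (f : F₁ →+* F₂) (z : F₁) : (W.comap f).valuation z = 1 ↔ W.valuation (f z) = 1 := by
  have h1 := valuation_comap_lt_one_iff W f z
  have h2 : (W.comap f).valuation z ≤ 1 ↔ W.valuation (f z) ≤ 1 := by
    rw [ValuationSubring.valuation_le_one_iff, ValuationSubring.valuation_le_one_iff,
      ValuationSubring.mem_comap]
  constructor
  · intro h
    exact le_antisymm (h2.1 h.le) (not_lt.1 fun hlt => (h1.2 hlt).ne h)
  · intro h
    exact le_antisymm (h2.2 h.le) (not_lt.1 fun hlt => (h1.1 hlt).ne h)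

theorem isUnif_comap {F : Type*} [Field F] {W : ValuationSubring F} {ϖ : F} (h : IsUnif W ϖ)
    (w : F ≃+* F) (hw : w ϖ = ϖ) : IsUnif (W.comap (w : F →+* F)) ϖ := by
  refine ⟨?_, ?_, fun y hy => ?_⟩
  · rw [ValuationSubring.mem_comap]
    show w ϖ ∈ W
    rw [hw]
    exact h.mem
  · rw [ValuationSubring.mem_comap]
    show w ϖ⁻¹ ∉ W
    rw [map_inv₀, hw]
    exact h.inv_notMem
  · have hwy : w y ≠ 0 := (_root_.map_ne_zero w).mpr hy
    obtain ⟨n, h1, h2⟩ := h.exists_zpow (w y) hwy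
    refine ⟨n, ?_, ?_⟩
    · rw [ValuationSubring.mem_comap]
      show w (y / ϖ ^ n) ∈ W
      rw [map_div₀, map_zpow₀, hw]
      exact h1
    · rw [ValuationSubring.mem_comap]
      show w (y / ϖ ^ n)⁻¹ ∈ W
      rw [map_inv₀, map_div₀, map_zpow₀, hw]
      exact h2

/-- a separating element from a "Kronecker element" `a`. -/
theorem sep_elt {F : Type*} [Field F] {W : ValuationSubring F} (w : F ≃+* F)
    (hww : ∀ y, w (w y) = y) {a : F} (ha₁ : W.valuation a < 1) (ha₂ : W.valuation (w a) = 1) :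
    W.valuation (w a / (a + w a) - 1) < 1 ∧ W.valuation (w (w a / (a + w a))) < 1 := by
  have hs : W.valuation (a + w a) = 1 := by
    rw [Valuation.map_add_eq_of_lt_right _ (by rw [ha₂]; exact ha₁), ha₂]
  have hs0 : a + w a ≠ 0 := by
    intro h0
    rw [h0, map_zero] at hs
    exact zero_ne_one hs
  constructor
  · have e : w a / (a + w a) - 1 = -a / (a + w a) := by
      field_simp
      ring
    rw [e, map_div₀, hs, div_one, Valuation.map_neg]
    exact ha₁
  · have e : w (w a / (a + w a)) = a / (a + w a) := by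
      rw [map_div₀, map_add, hww, add_comm]
    rw [e, map_div₀, hs, div_one]
    exact ha₁

theorem twoHyp_of_res {E F k : Type*} [Field E] [Field F] [Algebra E F] [Field k] {q : ℕ} [NeZero q]
    {R : ValuationSubring E} {ϖ : E} {V₁ : ValuationSubring F} (w : F ≃+* F) (be : E →+* F)
    (hw_al : ∀ f, w (algebraMap E F f) = be f) (hw_be : ∀ f, w (be f) = algebraMap E F f)
    (hU : IsUnif R ϖ) (hU₁ : IsUnif V₁ (algebraMap E F ϖ))
    (hwϖ : w (algebraMap E F ϖ) = algebraMap E F ϖ)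
    (r' : R →+* LaurentSeries k) (r₁ : V₁ →+* LaurentSeries k)
    (hr' : ∀ f : R, r' f = 0 → R.valuation (f : E) < 1)
    (hr₁ : ∀ y : V₁, V₁.valuation (y : F) < 1 → r₁ y = 0)
    (hal : ∀ f : R, ∃ h : algebraMap E F (f : E) ∈ V₁, r₁ ⟨_, h⟩ = r' f)
    (hbe : ∀ f : R, ∃ h : be (f : E) ∈ V₁, r₁ ⟨_, h⟩ = qExpand k q (r' f))
    [FiniteDimensional E F] (hfr : Module.finrank E F ≤ q + 1)
    {e : F} (he₁ : V₁.valuation (e - 1) < 1) (he₂ : V₁.valuation (w e) < 1)
    (θ' : R) (hθ0 : r' θ' ≠ 0) (hθ : IsCoprime (r' θ').order (q : ℤ)) :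
    TwoHyp R ϖ V₁ (V₁.comap (w : F →+* F)) q e (be (θ' : E)) := by
  refine
    { unif := hU
      unif₁ := hU₁
      unif₂ := isUnif_comap hU₁ w hwϖ
      le₁ := fun r hr => (hal ⟨r, hr⟩).1
      le₂ := fun r hr => ?_
      finite := inferInstance
      finrank_le := hfr
      e₁ := he₁
      e₂ := (valuation_comap_lt_one_iff V₁ (w : F →+* F) e).2 he₂
      θ₁ := (hbe θ').1
      θ₂ := ?_
      ind := fun a ha hsum i => ?_ }
  · rw [ValuationSubring.mem_comap]
    show w (algebraMap E F r) ∈ V₁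
    rw [hw_al]
    exact (hbe ⟨r, hr⟩).1
  · rw [ValuationSubring.mem_comap]
    show w (be (θ' : E)) ∈ V₁
    rw [hw_be]
    exact (hal θ').1
  · rw [valuation_comap_lt_one_iff] at hsum
    let Y : V₁ := ∑ i : Fin q, (⟨be (a i), (hbe ⟨a i, ha i⟩).1⟩ : V₁) *
      (⟨algebraMap E F (θ' : E), (hal θ').1⟩ : V₁) ^ (i : ℕ)
    have hY : (Y : F) = (w : F →+* F) (∑ i, algebraMap E F (a i) * be (θ' : E) ^ (i : ℕ)) := by
      have h1 : (Y : F) = ∑ i : Fin q, be (a i) * algebraMap E F (θ' : E) ^ (i : ℕ) := by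
        show V₁.subtype Y = _
        rw [map_sum]
        rfl
      rw [h1, map_sum]
      refine Finset.sum_congr rfl fun i _ => ?_
      rw [map_mul, map_pow]
      show _ = w (algebraMap E F (a i)) * w (be (θ' : E)) ^ (i : ℕ)
      rw [hw_al, hw_be]
    have h0 : r₁ Y = 0 := hr₁ Y (by rw [hY]; exact hsum)
    have h1 : r₁ Y = ∑ i : Fin q, qExpand k q (r' ⟨a i, ha i⟩) * r' θ' ^ (i : ℕ) := by
      rw [map_sum]
      refine Finset.sum_congr rfl fun i _ => ?_
      rw [map_mul, map_pow, (hbe ⟨a i, ha i⟩).2, (hal θ').2]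
    rw [h1] at h0
    exact hr' ⟨a i, ha i⟩
      (Fermat.Agent.S36.Mod.indep_pow q hθ0 hθ (fun i => r' ⟨a i, ha i⟩) h0 i)

end Fermat.Agent.BAD.LevelQ

end
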