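/-
Project BAD, block LQ-MOD, part (3) COMPLETE (sub-architect helper237).  Task LQM-C3.

`[FK K (M q) : α (FK K M)] = q + 1` over an abstract subfield `K` of `ℚ̄`.

Sketch: `S36.Mod.dg_alphaK` (`S36/Mod/HalfInst/Degree.lean`, section General: the degree does not change
under extension of constants), `heckeAlphaBar_eq_inc`, `S36.Norm.dg_inc_of_not_dvd`
(`S36/Norm/Degree.lean`); `dg f` is by definition the `finrank` for `f.toAlgebra`
(`S36/Norm/Along.lean`); compare the proof of `Setup.dg_al1` at the end of `HalfInst/Degree.lean`.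
Finiteness: `Module.finite_of_finrank_pos` / `FiniteDimensional.of_finrank_pos`.
-/
import Fermat.Agent.S36.Mod.HalfInst.Degree

set_option autoImplicit false
set_option linter.unusedSectionVars false

noncomputable section

namespace Fermat.Agent.BAD.LevelQ

open ModularCurve Fermat.Agent.S24 Fermat.Agent.S18

variable (K : Type*) [Field K] [Algebra ℚ K] [Algebra K Kbar] {M q : ℕ} [NeZero M] [NeZero q]

theorem finrank_al (hq : q.Prime) (hqM : ¬ q ∣ M) :
    letI := (heckeAlphaBar K M q).toRingHom.toAlgebra
    Module.finrank (FK K M) (FK K (M * q)) = q + 1 := by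
  have h : S36.Norm.dg (heckeAlphaBar K M q).toRingHom = q + 1 := by
    rw [S36.Mod.dg_alphaK, S36.Norm.heckeAlphaBar_eq_inc]
    exact S36.Norm.dg_inc_of_not_dvd hq hqM
  exact h

theorem finite_al (hq : q.Prime) (hqM : ¬ q ∣ M) :
    letI := (heckeAlphaBar K M q).toRingHom.toAlgebra
    FiniteDimensional (FK K M) (FK K (M * q)) := by
  letI := (heckeAlphaBar K M q).toRingHom.toAlgebra
  refine Module.finite_of_finrank_pos ?_
  rw [finrank_al K hq hqM]
  exact Nat.succ_pos q

end Fermat.Agent.BAD.LevelQ

end
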