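/-
Project BAD, block LQ-MOD, part (3) COMPLETE (sub-architect and prover helper237).

For an abstract subfield `K` of `ℚ̄`, a discrete valuation ring `A₀` of `K` (uniformiser `ϖ₀`), a prime
`q ∤ M`, the Gauss valuation rings `Ow'` of `FK K M` and `Voo` of `FK K (M * q)`, an Atkin-Lehner
involution `w` and a Kronecker element `a` (`Voo.valuation a < 1`, `Voo.valuation (w a) = 1`):

* `twoHyp_FK`   : the hypotheses `TwoHyp` of `BAD/LevelQ/Abs/Two.lean` for `(Voo, Voo ∘ w)` over `Ow'`;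
* `dense_FK`    : the field `dense` of the hub `LQ` (`f = 1` for `(v_∞, α)`);
* `integral_FK` : an element integral at `v_∞` and at `v_0` is integral over `α Ow'`;
* `complete_FK` : the field `complete` of the hub `LQ`.
-/
import Fermat.Agent.BAD.LevelQ.Mod.Complete.Abs
import Fermat.Agent.BAD.LevelQ.Mod.Complete.Std
import Fermat.Agent.BAD.LevelQ.Mod.Complete.Degree
import Fermat.Agent.BAD.LevelQ.Abs.Tower

set_option autoImplicit false
set_option linter.unusedSectionVars false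
set_option linter.style.haveILetI false

noncomputable section

namespace Fermat.Agent.BAD.LevelQ

open Polynomial IntermediateField ModularCurve Fermat.Agent.S24 Fermat.Agent.S18
  Fermat.Agent.S18.Vert Fermat.Agent.S36.Mod

variable {K : Type*} [Field K] [Algebra ℚ K] [Algebra K Kbar] {A₀ : ValuationSubring K} {ϖ₀ : K}
variable {M q : ℕ} [NeZero M] [NeZero q]
variable {Ow' : ValuationSubring (FK K M)} {Voo : ValuationSubring (FK K (M * q))}

theorem twoHyp_FK (h₀ : IsUnif A₀ ϖ₀) (hq : q.Prime) (hqM : ¬ q ∣ M)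
    (hG' : IsGauss A₀ ϖ₀ (FK K M) Ow') (hG : IsGauss A₀ ϖ₀ (FK K (M * q)) Voo)
    (w : FK K (M * q) ≃ₐ[K] FK K (M * q))
    (w_al : ∀ f, w (heckeAlphaBar K M q f) = heckeBetaBar K M q f)
    (w_be : ∀ f, w (heckeBetaBar K M q f) = heckeAlphaBar K M q f)
    (w_w : ∀ y, w (w y) = y) {a : FK K (M * q)}
    (ha₁ : Voo.valuation a < 1) (ha₂ : Voo.valuation (w a) = 1) :
    letI := (heckeAlphaBar K M q).toRingHom.toAlgebra
    TwoHyp Ow' (algebraMap K (FK K M) ϖ₀) Voo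
      (Voo.comap ((w : FK K (M * q) ≃+* FK K (M * q)) : FK K (M * q) →+* FK K (M * q))) q
      (w a / (a + w a)) (heckeBetaBar K M q (jK K M)) := by
  haveI : IsDiscreteValuationRing A₀ := h₀.isDiscreteValuationRing
  letI := (heckeAlphaBar K M q).toRingHom.toAlgebra
  haveI : FiniteDimensional (FK K M) (FK K (M * q)) := finite_al K hq hqM
  obtain rfl := IsGauss.eq_stdEmb h₀ hG'
  obtain rfl := IsGauss.eq_stdEmb h₀ hG
  have hϖ : algebraMap (FK K M) (FK K (M * q)) (algebraMap K (FK K M) ϖ₀) =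
      algebraMap K (FK K (M * q)) ϖ₀ := (heckeAlphaBar K M q).commutes ϖ₀
  obtain ⟨he₁, he₂⟩ := sep_elt (W := (stdEmb A₀ (M * q)).val)
    (w : FK K (M * q) ≃+* FK K (M * q)) w_w ha₁ ha₂
  refine twoHyp_of_res (k := IsLocalRing.ResidueField A₀) (w : FK K (M * q) ≃+* FK K (M * q))
    (heckeBetaBar K M q).toRingHom w_al w_be hG'.unif (by rw [hϖ]; exact hG.unif)
    (by rw [hϖ]; exact w.commutes ϖ₀) (stdEmb A₀ M).res (stdEmb A₀ (M * q)).res ?_ ?_ ?_ ?_
    (finrank_al K hq hqM).le he₁ he₂ ⟨jK K M, std_jK_mem A₀ M⟩ ?_ ?_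
  · intro f hf
    exact (ValuationSubring.mem_nonunits_iff _).1 (((stdEmb A₀ M).res_eq_zero_iff f).1 hf)
  · intro y hy
    exact ((stdEmb A₀ (M * q)).res_eq_zero_iff y).2 ((ValuationSubring.mem_nonunits_iff _).2 hy)
  · intro f
    exact ⟨(std_al_mem_iff A₀ M q f).2 f.2, std_res_al A₀ M q f f.2 _⟩
  · intro f
    exact ⟨(std_be_mem_iff A₀ M q f).2 f.2, std_res_be A₀ M q f f.2 _⟩
  · rw [std_res_jK]
    exact jqModC_ne_zero_of_nontrivial _
  · rw [std_res_jK, order_jqModC']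
    exact (isCoprime_one_left (x := (q : ℤ))).neg_left

section Consequences

variable (h₀ : IsUnif A₀ ϖ₀) (hq : q.Prime) (hqM : ¬ q ∣ M)
  (hG' : IsGauss A₀ ϖ₀ (FK K M) Ow') (hG : IsGauss A₀ ϖ₀ (FK K (M * q)) Voo)
  (w : FK K (M * q) ≃ₐ[K] FK K (M * q))
  (w_al : ∀ f, w (heckeAlphaBar K M q f) = heckeBetaBar K M q f)
  (w_be : ∀ f, w (heckeBetaBar K M q f) = heckeAlphaBar K M q f)
  (w_w : ∀ y, w (w y) = y) {a : FK K (M * q)}
  (ha₁ : Voo.valuation a < 1) (ha₂ : Voo.valuation (w a) = 1)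

include h₀ hq hqM hG' hG w_al w_be w_w ha₁ ha₂

/-- `f = 1` for `(v_∞, α)`. -/
theorem dense_FK : ∀ y ∈ Voo, ∃ r ∈ Ow', Voo.valuation (y - heckeAlphaBar K M q r) < 1 := by
  intro y hy
  letI := (heckeAlphaBar K M q).toRingHom.toAlgebra
  exact (twoHyp_FK h₀ hq hqM hG' hG w w_al w_be w_w ha₁ ha₂).dense₁ y hy

/-- an element integral at `v_∞` and at `v_0` is integral over `α Ow'`. -/
theorem integral_FK (y : FK K (M * q)) (h₁ : y ∈ Voo) (h₂ : w y ∈ Voo) :
    ∃ p : (FK K M)[X], p.Monic ∧ (∀ i, p.coeff i ∈ Ow') ∧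
      (p.map (heckeAlphaBar K M q).toRingHom).eval y = 0 := by
  letI := (heckeAlphaBar K M q).toRingHom.toAlgebra
  obtain ⟨p, hp, hc, h0⟩ := (twoHyp_FK h₀ hq hqM hG' hG w w_al w_be w_w ha₁ ha₂).integral y h₁ h₂
  refine ⟨p, hp, hc, ?_⟩
  rw [eval_map]
  exact h0

/-- the list `{v_∞, v_0}` of vertical valuation rings is complete. -/
theorem complete_FK {V : Fin 2 → ValuationSubring (FK K (M * q))} (hV0 : V 0 = Voo)
    (hV1 : ∀ y, y ∈ V 1 ↔ w y ∈ V 0) {x' : FK K M} (hV' : IsVert A₀ ϖ₀ Ow' K⟮x'⟯) :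
    IsMVert A₀ ϖ₀ V K⟮heckeAlphaBar K M q x'⟯ := by
  subst hV0
  letI := (heckeAlphaBar K M q).toRingHom.toAlgebra
  have hT := twoHyp_FK h₀ hq hqM hG' hG w w_al w_be w_w ha₁ ha₂
  have hV1' : V 1 = (V 0).comap
      ((w : FK K (M * q) ≃+* FK K (M * q)) : FK K (M * q) →+* FK K (M * q)) := by
    ext y
    exact hV1 y
  have hϖ : (heckeAlphaBar K M q) (algebraMap K (FK K M) ϖ₀) =
      algebraMap K (FK K (M * q)) ϖ₀ := (heckeAlphaBar K M q).commutes ϖ₀
  refine isMVert_tower (heckeAlphaBar K M q) hV' (finite_al K hq hqM) ?_ ?_ ?_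
  · intro c y hy
    fin_cases c
    · exact hT.le₁ y hy
    · show heckeAlphaBar K M q y ∈ V 1
      rw [hV1']
      exact hT.le₂ y hy
  · intro c
    fin_cases c
    · have := Two.val_unif_lt_one hT.unif₁
      rwa [show algebraMap K (FK K (M * q)) ϖ₀ = _ from hϖ.symm]
    · show (V 1).valuation _ < 1
      have := Two.val_unif_lt_one hT.unif₂
      rw [hV1']
      rwa [show algebraMap K (FK K (M * q)) ϖ₀ = _ from hϖ.symm]
  · intro y hy
    exact integral_FK h₀ hq hqM hG' hG w w_al w_be w_w ha₁ ha₂ y (hy 0) ((hV1 y).1 (hy 1))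

end Consequences

end Fermat.Agent.BAD.LevelQ

end
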